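import Fermat.Agent.H28.ES1KL.GbAdjoinGen
import Fermat.Agent.H21.Es1Kl.Interfaces2

/-!
# P-DS / ES1-KL, milestone 2, row 1009 ES1-KL2-GBT (helper28)

`gbAdjoinT3 : GbAdjoinT3Statement` and `gbAdjoinT2 : GbAdjoinT2Statement`
(statements of helper21, `Fermat.Agent.H21.Es1Kl.Interfaces2`): a good basis in the chart `j`
of a level field `F₀ ∋ j` at the prime `ℓ ≠ 3` (resp. `ℓ ≠ 2`) gives a good basis in the chart
`j` of `F₀(t₃)` (resp. `F₀(t₂)`).

Bezout data (computed with the Sylvester matrix and divided by the common factor):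
* level 3: `P = (Y + 27)(Y + 243)³ - j Y³`, `U P + V P' = - 3²⁴ j (j - 1728)²`;
* level 2: `P = (Y + 256)³ - j Y²`, `U P + V P' = - 2²⁵ j (j - 1728)`.
-/

set_option autoImplicit false
set_option linter.style.haveILetI false
set_option linter.unusedSectionVars false
set_option synthInstance.maxHeartbeats 400000
set_option maxHeartbeats 2000000

noncomputable section

namespace Fermat.Agent.H28

open Polynomial ModularCurve IntermediateField
open Fermat.Agent.H22.KL Fermat.Agent.H91.ES1KL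

/-! ### level 3 -/

/-- `P₃ = (Y + 27)(Y + 243)³ - j Y³`. -/
def gbP3 : ℤ[X][X] := (X + C 27) * (X + C 243) ^ 3 - C X * X ^ 3

/-- `∂P₃/∂Y`. -/
def gbP3' : ℤ[X][X] := 19131876 + 393660 * X + (2268 - 3 * C X) * X ^ 2 + 4 * X ^ 3

/-- Bezout cofactor of `P₃`. -/
def gbU3 : ℤ[X][X] :=
  (132239526912 + 5093330544 * C X - 1732104 * C X ^ 2 - 729 * C X ^ 3)
    + (2055849984 + 24564384 * C X - 56376 * C X ^ 2 + 24 * C X ^ 3) * X
    + (5225472 + 52272 * C X - 32 * C X ^ 2) * X ^ 2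

/-- Bezout cofactor of `∂P₃/∂Y`. -/
def gbV3 : ℤ[X][X] :=
  ((-2677850419968 : ℤ[X][X]) - 147219785820 * C X + 86093442 * C X ^ 2)
    + ((-118770686208 : ℤ[X][X]) - 2561545620 * C X + 1102248 * C X ^ 2 + 243 * C X ^ 3) * X
    + ((-760866048 : ℤ[X][X]) - 8284356 * C X + 18873 * C X ^ 2 - 8 * C X ^ 3) * X ^ 2
    + ((-1306368 : ℤ[X][X]) - 13068 * C X + 8 * C X ^ 2) * X ^ 3

theorem gbP3_monic : gbP3.Monic := by
  have h1 : ((X + C 27) * (X + C 243) ^ 3 : ℤ[X][X]).Monic :=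
    (monic_X_add_C _).mul ((monic_X_add_C _).pow 3)
  have hd1 : ((X + C 27) * (X + C 243) ^ 3 : ℤ[X][X]).natDegree = 4 := by
    rw [(monic_X_add_C (27 : ℤ[X])).natDegree_mul ((monic_X_add_C (243 : ℤ[X])).pow 3),
      (monic_X_add_C (243 : ℤ[X])).natDegree_pow, natDegree_X_add_C, natDegree_X_add_C]
  have hd2 : (C (X : ℤ[X]) * X ^ 3 : ℤ[X][X]).natDegree ≤ 3 := natDegree_C_mul_X_pow_le _ _
  have hne : (C (X : ℤ[X]) * X ^ 3 : ℤ[X][X]).degree <
      ((X + C 27) * (X + C 243) ^ 3 : ℤ[X][X]).degree := by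
    apply degree_lt_degree
    rw [hd1]
    omega
  exact h1.sub_of_left hne

theorem gbP3_derivative : derivative gbP3 = gbP3' := by
  simp only [gbP3, gbP3', derivative_sub, derivative_mul, derivative_pow, derivative_add,
    derivative_X, derivative_C]
  simp only [map_ofNat, Nat.cast_ofNat]
  ring

theorem gbP3_bezout :
    (C (C (-282429536481 : ℤ) * (X * (X - 1728) ^ 2)) : ℤ[X][X]) =
      gbU3 * gbP3 + gbV3 * gbP3' := by
  simp only [gbP3, gbP3', gbU3, gbV3, map_mul, map_pow, map_sub, map_neg, map_ofNat]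
  ring

theorem gbQ3_monic : (X * (X - 1728) ^ 2 : ℤ[X]).Monic := by
  have h : (X - 1728 : ℤ[X]) = X - C 1728 := by rw [map_ofNat]
  rw [h]
  exact monic_X.mul ((monic_X_sub_C _).pow 2)

theorem gbP3_rel :
    eval₂ ((aeval (jqModC ℤ) : ℤ[X] →ₐ[ℤ] LaurentSeries ℤ) : ℤ[X] →+* LaurentSeries ℤ)
      (Fermat.Agent.H1.ESD.t3 ℤ) gbP3 = 0 := by
  simp only [gbP3, eval₂_sub, eval₂_mul, eval₂_pow, eval₂_add, eval₂_X, eval₂_C,
    RingHom.coe_coe, aeval_X]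
  simp only [map_ofNat]
  rw [sub_eq_zero]
  exact (Fermat.Agent.H1.ESD.t3_rel ℤ).symm

/-- **ES1-KL2-GBT (`t₃`)**. -/
theorem gbAdjoinT3 : Fermat.Agent.H21.Es1Kl.GbAdjoinT3Statement := by
  intro F₀ hjq ℓ hl h3 hGB
  have hc : ¬ (ℓ : ℤ) ∣ (-282429536481 : ℤ) := by
    have h4 := Fermat.Agent.H27.KLGB.not_dvd_pow_of_prime_ne hl Nat.prime_three h3 24
    rw [dvd_neg]
    norm_num at h4 ⊢
    exact h4
  have h := modelGoodBasisGen_adjoin_of_bezout F₀ hjq ℓ hl (Fermat.Agent.H1.ESD.t3 ℤ)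
    gbP3 gbP3' gbU3 gbV3 (-282429536481) (X * (X - 1728) ^ 2)
    gbP3_monic gbP3_derivative gbP3_rel gbQ3_monic hc gbP3_bezout hGB
  rwa [Fermat.Agent.H1.ESD.coeffMap_t3] at h

/-! ### level 2 -/

/-- `P₂ = (Y + 256)³ - j Y²`. -/
def gbP2 : ℤ[X][X] := (X + C 256) ^ 3 - C X * X ^ 2

/-- `∂P₂/∂Y`. -/
def gbP2' : ℤ[X][X] := 196608 + (1536 - 2 * C X) * X + 3 * X ^ 2

/-- Bezout cofactor of `P₂`. -/
def gbU2 : ℤ[X][X] :=
  ((-2064384 : ℤ[X][X]) + 4608 * C X - 2 * C X ^ 2) + ((-4608 : ℤ[X][X]) + 3 * C X) * X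

/-- Bezout cofactor of `∂P₂/∂Y`. -/
def gbV2 : ℤ[X][X] :=
  (176160768 - 98304 * C X) + (1081344 - 2304 * C X + C X ^ 2) * X + (1536 - C X) * X ^ 2

theorem gbP2_monic : gbP2.Monic := by
  have h1 : ((X + C 256) ^ 3 : ℤ[X][X]).Monic := (monic_X_add_C _).pow 3
  have hd1 : ((X + C 256) ^ 3 : ℤ[X][X]).natDegree = 3 := by
    rw [(monic_X_add_C (256 : ℤ[X])).natDegree_pow, natDegree_X_add_C]
  have hd2 : (C (X : ℤ[X]) * X ^ 2 : ℤ[X][X]).natDegree ≤ 2 := natDegree_C_mul_X_pow_le _ _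
  have hne : (C (X : ℤ[X]) * X ^ 2 : ℤ[X][X]).degree < ((X + C 256) ^ 3 : ℤ[X][X]).degree := by
    apply degree_lt_degree
    rw [hd1]
    omega
  exact h1.sub_of_left hne

theorem gbP2_derivative : derivative gbP2 = gbP2' := by
  simp only [gbP2, gbP2', derivative_sub, derivative_mul, derivative_pow, derivative_add,
    derivative_X, derivative_C]
  simp only [map_ofNat, Nat.cast_ofNat]
  ring

theorem gbP2_bezout :
    (C (C (-33554432 : ℤ) * (X * (X - 1728))) : ℤ[X][X]) = gbU2 * gbP2 + gbV2 * gbP2' := by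
  simp only [gbP2, gbP2', gbU2, gbV2, map_mul, map_sub, map_neg, map_ofNat]
  ring

theorem gbQ2_monic : (X * (X - 1728) : ℤ[X]).Monic := by
  have h : (X - 1728 : ℤ[X]) = X - C 1728 := by rw [map_ofNat]
  rw [h]
  exact monic_X.mul (monic_X_sub_C _)

theorem gbP2_rel :
    eval₂ ((aeval (jqModC ℤ) : ℤ[X] →ₐ[ℤ] LaurentSeries ℤ) : ℤ[X] →+* LaurentSeries ℤ)
      (Fermat.Agent.H17.ESD.t2S ℤ) gbP2 = 0 := by
  simp only [gbP2, eval₂_sub, eval₂_mul, eval₂_pow, eval₂_add, eval₂_X, eval₂_C,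
    RingHom.coe_coe, aeval_X]
  simp only [map_ofNat]
  rw [sub_eq_zero]
  exact (Fermat.Agent.H17.ESD.t2S_identity ℤ).symm

/-- **ES1-KL2-GBT (`t₂`)**. -/
theorem gbAdjoinT2 : Fermat.Agent.H21.Es1Kl.GbAdjoinT2Statement := by
  intro F₀ hjq ℓ hl h2 hGB
  have hc : ¬ (ℓ : ℤ) ∣ (-33554432 : ℤ) := by
    have h4 := Fermat.Agent.H27.KLGB.not_dvd_pow_of_prime_ne hl Nat.prime_two h2 25
    rw [dvd_neg]
    norm_num at h4 ⊢
    exact h4
  have h := modelGoodBasisGen_adjoin_of_bezout F₀ hjq ℓ hl (Fermat.Agent.H17.ESD.t2S ℤ)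
    gbP2 gbP2' gbU2 gbV2 (-33554432) (X * (X - 1728))
    gbP2_monic gbP2_derivative gbP2_rel gbQ2_monic hc gbP2_bezout hGB
  rwa [Fermat.Agent.H17.ESD.coeffMap_t2S] at h

end Fermat.Agent.H28

end
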