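import Fermat.Agent.H74.ES1KL.SimpleGBChart

/-!
# P-DS / ES1-KL, milestone 2, row 1009 (helper28): adjoining a root with Bezout data

Abstract tower step in the chart language of `Fermat.Agent.H22.KL`: `A` a discrete valuation
ring with uniformiser `ϖ`, `x ∈ E₀` transcendental over `A`, `E = E₀(v)` where `v` is a root of
a monic `P ∈ A[x][Y]` such that `d = U P + V P'` for some `d ∈ A[x]`, `d ∉ ϖ A[x]`
(e.g. `d = ± Res_Y(P, P')`).  Then a good basis of `E₀` gives a good basis of `E`
(`goodBasis_adjoin_of_bezout`).  The minimal polynomial `m` of `v` over `E₀` divides `P`,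
`P = m g`, `P'(v) = m'(v) g(v)` and `g(v)` is integral over `A[x]`, so
`d / m'(v) = V(v) g(v)` is integral and helper74's `simpleGoodBasis'` applies.
-/

set_option autoImplicit false
set_option linter.style.haveILetI false
set_option linter.unusedSectionVars false
set_option synthInstance.maxHeartbeats 400000
set_option maxHeartbeats 1000000

noncomputable section

namespace Fermat.Agent.H28

open Polynomial
open Fermat.Agent.H22.KL
open Fermat.Agent.H54.KLDict
open Fermat.Agent.H3.KLKum (LocInt LocDvd)

/-- Integrality of the value at an integral element of a polynomial with integral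
coefficients. -/
theorem isIntegral_aeval_of_coeff {R E₀ E : Type*} [CommRing R] [Field E₀] [Field E]
    [Algebra R E₀] [Algebra R E] [Algebra E₀ E] [IsScalarTower R E₀ E]
    (g : E₀[X]) (hg : ∀ n, IsIntegral R (g.coeff n)) (v : E) (hv : IsIntegral R v) :
    IsIntegral R (aeval v g) := by
  rw [aeval_eq_sum_range]
  refine IsIntegral.sum _ (fun i _ => ?_)
  rw [Algebra.smul_def]
  exact ((hg i).algebraMap).mul (hv.pow i)

/-- **Tower step with Bezout data.** -/
theorem goodBasis_adjoin_of_bezout
    (A : Type) [CommRing A] [IsDomain A] [IsDiscreteValuationRing A]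
    (E₀ E : Type) [Field E₀] [Field E] [Algebra A E₀] [Algebra A E] [Algebra E₀ E]
    [IsScalarTower A E₀ E] [CharZero E₀]
    (hinj : Function.Injective (algebraMap A E₀))
    (ϖ : A) (hϖ : Irreducible ϖ) (x : E₀) (hx : Transcendental A x)
    (v : E) (hadjF : IntermediateField.adjoin E₀ ({v} : Set E) = ⊤)
    (P P' U V : A[X][X]) (d : A[X]) (hP : P.Monic) (hP' : derivative P = P')
    (hPv : eval₂ ((aeval (algebraMap E₀ E x) : A[X] →ₐ[A] E) : A[X] →+* E) v P = 0)
    (hd : ¬ (C ϖ : A[X]) ∣ d)
    (hBez : (C d : A[X][X]) = U * P + V * P')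
    (hgb : GoodBasis A E₀ ϖ x) : GoodBasis A E ϖ (algebraMap E₀ E x) := by
  classical
  have hx' : Transcendental A (algebraMap E₀ E x) :=
    (transcendental_algebraMap_iff (algebraMap E₀ E).injective).mpr hx
  letI iR₀ : Algebra A[X] E₀ := polyAlgebra A E₀ x
  letI iR : Algebra A[X] E := polyAlgebra A E (algebraMap E₀ E x)
  have hc₀ : IsChart A A[X] x ϖ (C ϖ) := isChart_poly x hx ϖ
  have hc : IsChart A A[X] (algebraMap E₀ E x) ϖ (C ϖ) := isChart_poly _ hx' ϖ
  haveI : IsScalarTower A[X] E₀ E :=
    IsScalarTower.of_algebraMap_eq (fun p => aeval_algebraMap_apply E x p)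
  -- `v` is integral
  have hPv' : aeval v P = 0 := hPv
  have hvR : IsIntegral A[X] v := ⟨P, hP, hPv⟩
  have hvint : IsIntegral E₀ v := hvR.tower_top
  have hvB : v ∈ chartClosure A E (algebraMap E₀ E x) := hc.mem_chartClosure_iff.mpr hvR
  have hadj : Algebra.adjoin E₀ ({v} : Set E) = ⊤ := by
    rw [← IntermediateField.adjoin_simple_toSubalgebra_of_isAlgebraic hvint.isAlgebraic, hadjF,
      IntermediateField.top_toSubalgebra]
  -- the element `d`
  have hd0 : d ≠ 0 := fun h => hd (h ▸ dvd_zero _)
  have hd₀ : algebraMap A[X] E₀ d ≠ 0 := fun h => hd0 (hc₀.injective (h.trans (map_zero _).symm))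
  have hdg : (algebraMap A[X] E₀ d)⁻¹ ∈ gaussClosure A E₀ ϖ x := by
    refine hc₀.mem_gaussClosure_iff.mpr ⟨d, hd, ?_⟩
    rw [Algebra.smul_def, mul_inv_cancel₀ hd₀]
    exact isIntegral_one
  -- the minimal polynomial
  have hroot : aeval v (P.map (algebraMap A[X] E₀)) = 0 := by
    rw [aeval_map_algebraMap]; exact hPv'
  obtain ⟨g, hg⟩ := minpoly.dvd E₀ v hroot
  have hPm : (P.map (algebraMap A[X] E₀)).Monic := hP.map _
  have hgm : g.Monic := by
    rw [hg] at hPm
    exact (minpoly.monic hvint).of_mul_monic_left hPm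
  have hglift : g ∈ lifts (algebraMap (integralClosure A[X] E₀) E₀) :=
    integralClosure.mem_lifts_of_monic_of_dvd_map E₀ hP hgm ⟨minpoly E₀ v, by rw [hg, mul_comm]⟩
  have hgcoeff : ∀ n, IsIntegral A[X] (g.coeff n) := by
    intro n
    obtain ⟨y, hy⟩ := (lifts_iff_coeff_lifts g).mp hglift n
    rw [← hy]
    exact y.2
  have hgv : IsIntegral A[X] (aeval v g) := isIntegral_aeval_of_coeff g hgcoeff v hvR
  have hVv : IsIntegral A[X] (aeval v V) := by
    have h1 : aeval v V ∈ Algebra.adjoin A[X] ({v} : Set E) := aeval_mem_adjoin_singleton _ _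
    have h2 : Algebra.adjoin A[X] ({v} : Set E) ≤ integralClosure A[X] E :=
      Algebra.adjoin_le (Set.singleton_subset_iff.mpr hvR)
    exact h2 h1
  -- derivatives
  have hder : aeval v P' =
      aeval v (derivative (minpoly E₀ v)) * aeval v g := by
    have h1 : aeval v (derivative (P.map (algebraMap A[X] E₀))) = aeval v P' := by
      rw [derivative_map, aeval_map_algebraMap, hP']
    rw [← h1, hg, derivative_mul, map_add, map_mul, map_mul, minpoly.aeval, zero_mul, add_zero]
  have hsep : aeval v (derivative (minpoly E₀ v)) ≠ 0 :=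
    ((minpoly.irreducible hvint).separable).aeval_derivative_ne_zero (minpoly.aeval E₀ v)
  have hdE : algebraMap E₀ E (algebraMap A[X] E₀ d) =
      aeval v V * (aeval v (derivative (minpoly E₀ v)) * aeval v g) := by
    have h1 := congrArg (aeval v) hBez
    rw [aeval_C, map_add, map_mul, map_mul, hPv', mul_zero, zero_add, hder] at h1
    rw [← IsScalarTower.algebraMap_apply]
    exact h1
  have hdv : algebraMap E₀ E (algebraMap A[X] E₀ d) / aeval v (derivative (minpoly E₀ v)) ∈
      chartClosure A E (algebraMap E₀ E x) := by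
    refine hc.mem_chartClosure_iff.mpr ?_
    have h2 : algebraMap E₀ E (algebraMap A[X] E₀ d) / aeval v (derivative (minpoly E₀ v)) =
        aeval v V * aeval v g := by
      rw [hdE]
      field_simp
    rw [h2]
    exact hVv.mul hgv
  exact Fermat.Agent.H74.ES1KL.simpleGoodBasis' A E₀ E hinj ϖ hϖ x hx v hvint hadj hvB
    (algebraMap A[X] E₀ d) hd₀ hdg hdv hgb

end Fermat.Agent.H28

end
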