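import Fermat.Agent.H28.ES1KL.GbAdjoinAbs
import Fermat.Agent.H27.KLGB.ModelTower
import Fermat.Agent.H91.ES1KL.BasicGen
import Fermat.Agent.H69.ES1AlgRel

/-!
# P-DS / ES1-KL, milestone 2, row 1009 (helper28): good basis of `F₀(t)` from a good basis of `F₀`

Generic in the level field `F₀ ∋ j` and in the adjoined integral series `t₀ ∈ ℤ((q))`:
if `t₀` is a root of a monic `P ∈ ℤ[j][Y]` with `c q(j) = U P + V P'`, `q` monic, `ℓ ∤ c`, then
`ModelGoodBasisGen F₀ ℓ j → ModelGoodBasisGen (F₀(t₀)) ℓ j`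
(`modelGoodBasisGen_adjoin_of_bezout`).
-/

set_option autoImplicit false
set_option linter.style.haveILetI false
set_option linter.unusedSectionVars false
set_option synthInstance.maxHeartbeats 400000
set_option maxHeartbeats 1000000

noncomputable section

namespace Fermat.Agent.H28

open Polynomial ModularCurve IntermediateField
open Fermat.Agent.H22.KL Fermat.Agent.H91.ES1KL

/-- Monotonicity of the base change of level fields. -/
theorem laurentBaseChange_mono_gb (K₁ : Type) [Field K₁] [Algebra ℚ K₁]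
    {F₀ F' : IntermediateField ℚ (LaurentSeries ℚ)} (h : F₀ ≤ F') :
    laurentBaseChange K₁ F₀ ≤ laurentBaseChange K₁ F' := by
  rw [laurentBaseChange, IntermediateField.adjoin_le_iff]
  rintro _ ⟨z, hz, rfl⟩
  exact coeffEmb_mem_laurentBaseChange K₁ (h hz)

/-- `K₁ · F₀(t) = (K₁ · F₀)(t)`: the generation statement in the form needed by the tower
step. -/
theorem adjoin_eq_top_of_sup (K₁ : Type) [Field K₁] [Algebra ℚ K₁]
    (F₀ : IntermediateField ℚ (LaurentSeries ℚ)) (t : LaurentSeries ℚ)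
    (hle : laurentBaseChange K₁ F₀ ≤
      laurentBaseChange K₁ (F₀ ⊔ IntermediateField.adjoin ℚ {t}))
    (v : ↥(laurentBaseChange K₁ (F₀ ⊔ IntermediateField.adjoin ℚ {t})))
    (hv : (v : LaurentSeries K₁) = coeffEmb K₁ t) :
    letI : Algebra ↥(laurentBaseChange K₁ F₀)
        ↥(laurentBaseChange K₁ (F₀ ⊔ IntermediateField.adjoin ℚ {t})) :=
      (IntermediateField.inclusion hle).toRingHom.toAlgebra
    IntermediateField.adjoin ↥(laurentBaseChange K₁ F₀) ({v} : Set _) = ⊤ := by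
  classical
  letI iEE : Algebra ↥(laurentBaseChange K₁ F₀)
      ↥(laurentBaseChange K₁ (F₀ ⊔ IntermediateField.adjoin ℚ {t})) :=
    (IntermediateField.inclusion hle).toRingHom.toAlgebra
  have hιinj : Function.Injective
      (fun y : ↥(laurentBaseChange K₁ (F₀ ⊔ IntermediateField.adjoin ℚ {t})) =>
        (y : LaurentSeries K₁)) := Subtype.val_injective
  let T : Subfield (LaurentSeries K₁) :=
    (IntermediateField.adjoin ↥(laurentBaseChange K₁ F₀) ({v} : Set _)).toSubfield.map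
      ((laurentBaseChange K₁ (F₀ ⊔ IntermediateField.adjoin ℚ {t})).val :
        ↥(laurentBaseChange K₁ (F₀ ⊔ IntermediateField.adjoin ℚ {t})) →+* LaurentSeries K₁)
  have hTmem : ∀ y : ↥(laurentBaseChange K₁ (F₀ ⊔ IntermediateField.adjoin ℚ {t})),
      y ∈ IntermediateField.adjoin ↥(laurentBaseChange K₁ F₀) ({v} : Set _) →
      (y : LaurentSeries K₁) ∈ T := fun y hy => ⟨y, hy, rfl⟩
  -- `T` contains the constants, `K₁ · F₀` and `t`
  have hT0 : ∀ y : ↥(laurentBaseChange K₁ F₀), (y : LaurentSeries K₁) ∈ T := by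
    intro y
    exact hTmem (algebraMap ↥(laurentBaseChange K₁ F₀)
      ↥(laurentBaseChange K₁ (F₀ ⊔ IntermediateField.adjoin ℚ {t})) y)
      (IntermediateField.algebraMap_mem _ y)
  have hTc : ∀ a : K₁, algebraMap K₁ (LaurentSeries K₁) a ∈ T := by
    intro a
    exact hT0 (algebraMap K₁ ↥(laurentBaseChange K₁ F₀) a)
  have hTt : coeffEmb K₁ t ∈ T := by
    rw [← hv]
    exact hTmem v (IntermediateField.mem_adjoin_simple_self _ v)
  -- hence the image of `F₀(t)`
  have hTF : ∀ z ∈ F₀ ⊔ IntermediateField.adjoin ℚ {t}, coeffEmb K₁ z ∈ T := by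
    have h1 : F₀ ⊔ IntermediateField.adjoin ℚ {t} =
        IntermediateField.adjoin ℚ ((F₀ : Set (LaurentSeries ℚ)) ∪ {t}) := by
      rw [IntermediateField.adjoin_union, IntermediateField.adjoin_self]
    intro z hz
    rw [h1] at hz
    induction hz using IntermediateField.adjoin_induction with
    | mem y hy =>
      rcases hy with hy | hy
      · exact hT0 ⟨coeffEmb K₁ y, coeffEmb_mem_laurentBaseChange K₁ hy⟩
      · rw [Set.mem_singleton_iff] at hy
        rw [hy]; exact hTt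
    | algebraMap r =>
      rw [Fermat.Agent.H69.ES1.coeffEmb_algebraMap]
      exact hTc _
    | add y z _ _ hy hz => rw [map_add]; exact add_mem hy hz
    | inv y _ hy => rw [map_inv₀]; exact inv_mem hy
    | mul y z _ _ hy hz => rw [map_mul]; exact mul_mem hy hz
  have hET : (laurentBaseChange K₁ (F₀ ⊔ IntermediateField.adjoin ℚ {t})).toSubfield ≤ T := by
    have h2 : (laurentBaseChange K₁ (F₀ ⊔ IntermediateField.adjoin ℚ {t})).toSubfield =
        Subfield.closure
        (Set.range (algebraMap K₁ (LaurentSeries K₁)) ∪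
          (⇑(coeffEmb K₁) '' ((F₀ ⊔ IntermediateField.adjoin ℚ {t} :
            IntermediateField ℚ (LaurentSeries ℚ)) : Set (LaurentSeries ℚ)))) := rfl
    rw [h2, Subfield.closure_le]
    rintro y (⟨a, rfl⟩ | ⟨z, hz, rfl⟩)
    · exact hTc a
    · exact hTF z hz
  rw [eq_top_iff]
  intro y _
  obtain ⟨y', hy', hyy⟩ := hET y.2
  have hyeq : y' = y := hιinj hyy
  rw [← hyeq]
  exact hy'

/-- **Good basis of `F₀(t₀)` from a good basis of `F₀`**, Bezout form, generic in the level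
field. -/
theorem modelGoodBasisGen_adjoin_of_bezout (F₀ : IntermediateField ℚ (LaurentSeries ℚ))
    (hjq : jq ∈ F₀) (ℓ : ℕ) (hl : ℓ.Prime) (t₀ : LaurentSeries ℤ)
    (P P' U V : ℤ[X][X]) (c : ℤ) (q : ℤ[X]) (hP : P.Monic) (hP' : derivative P = P')
    (hrel : eval₂ ((aeval (jqModC ℤ) : ℤ[X] →ₐ[ℤ] LaurentSeries ℤ) : ℤ[X] →+* LaurentSeries ℤ)
      t₀ P = 0)
    (hq : q.Monic) (hc : ¬ (ℓ : ℤ) ∣ c)
    (hBez : (C (C c * q) : ℤ[X][X]) = U * P + V * P')
    (hGB : ModelGoodBasisGen F₀ ℓ jq) :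
    ModelGoodBasisGen
      (F₀ ⊔ IntermediateField.adjoin ℚ {coeffMap (Int.castRingHom ℚ) t₀}) ℓ jq := by
  classical
  intro K₁ _ _ _ A₀ _ _ _ _ _ iAE iST hℓ ϖ hϖ x hx
  haveI : CharZero K₁ := algebraRat.charZero K₁
  have hle : laurentBaseChange K₁ F₀ ≤ laurentBaseChange K₁
      (F₀ ⊔ IntermediateField.adjoin ℚ {coeffMap (Int.castRingHom ℚ) t₀}) :=
    laurentBaseChange_mono_gb K₁ le_sup_left
  letI iA₀ : Algebra A₀ (ModelFieldGen K₁ F₀) :=
    ((algebraMap K₁ (ModelFieldGen K₁ F₀)).comp (algebraMap A₀ K₁)).toAlgebra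
  haveI iST₀ : IsScalarTower A₀ K₁ (ModelFieldGen K₁ F₀) :=
    IsScalarTower.of_algebraMap_eq (fun _ => rfl)
  letI iEE : Algebra (ModelFieldGen K₁ F₀) (ModelFieldGen K₁
      (F₀ ⊔ IntermediateField.adjoin ℚ {coeffMap (Int.castRingHom ℚ) t₀})) :=
    (IntermediateField.inclusion hle).toRingHom.toAlgebra
  haveI iST₁ : IsScalarTower A₀ (ModelFieldGen K₁ F₀) (ModelFieldGen K₁
      (F₀ ⊔ IntermediateField.adjoin ℚ {coeffMap (Int.castRingHom ℚ) t₀})) := by
    refine IsScalarTower.of_algebraMap_eq (fun a => ?_)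
    rw [IsScalarTower.algebraMap_apply A₀ K₁ (ModelFieldGen K₁
      (F₀ ⊔ IntermediateField.adjoin ℚ {coeffMap (Int.castRingHom ℚ) t₀}))]
    rfl
  haveI : CharZero (ModelFieldGen K₁ F₀) :=
    charZero_of_injective_algebraMap (algebraMap K₁ (ModelFieldGen K₁ F₀)).injective
  have hinj : Function.Injective (algebraMap A₀ (ModelFieldGen K₁ F₀)) :=
    (algebraMap K₁ (ModelFieldGen K₁ F₀)).injective.comp (IsFractionRing.injective A₀ K₁)
  -- `j` in `E₀`
  let jE : ModelFieldGen K₁ F₀ := ⟨coeffEmb K₁ jq, coeffEmb_mem_laurentBaseChange K₁ hjq⟩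
  have hGBj : GoodBasis A₀ (ModelFieldGen K₁ F₀) ϖ jE := hGB K₁ A₀ hℓ ϖ hϖ jE rfl
  have hjtr : Transcendental A₀ jE := modelTranscendentalGen_jq F₀ K₁ A₀ jE rfl
  have hxj : algebraMap (ModelFieldGen K₁ F₀) (ModelFieldGen K₁
      (F₀ ⊔ IntermediateField.adjoin ℚ {coeffMap (Int.castRingHom ℚ) t₀})) jE = x :=
    Subtype.ext hx.symm
  -- `t` in `E`
  have htmem : coeffEmb K₁ (coeffMap (Int.castRingHom ℚ) t₀) ∈ laurentBaseChange K₁
      (F₀ ⊔ IntermediateField.adjoin ℚ {coeffMap (Int.castRingHom ℚ) t₀}) :=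
    coeffEmb_mem_laurentBaseChange K₁
      ((le_sup_right : IntermediateField.adjoin ℚ {coeffMap (Int.castRingHom ℚ) t₀} ≤ _)
        (IntermediateField.mem_adjoin_simple_self ℚ _))
  let v : ModelFieldGen K₁
      (F₀ ⊔ IntermediateField.adjoin ℚ {coeffMap (Int.castRingHom ℚ) t₀}) :=
    ⟨coeffEmb K₁ (coeffMap (Int.castRingHom ℚ) t₀), htmem⟩
  have hadjF := adjoin_eq_top_of_sup K₁ F₀ (coeffMap (Int.castRingHom ℚ) t₀) hle v rfl
  -- the polynomial data over `A₀`
  let f : ℤ[X] →+* A₀[X] := mapRingHom (Int.castRingHom A₀)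
  have hPA : (P.map f).Monic := hP.map f
  have hPA' : derivative (P.map f) = P'.map f := by rw [derivative_map, hP']
  have hBezA : (C ((C c * q).map (Int.castRingHom A₀)) : A₀[X][X]) =
      U.map f * P.map f + V.map f * P'.map f := by
    have h1 := congrArg (Polynomial.map f) hBez
    rw [Polynomial.map_add, Polynomial.map_mul, Polynomial.map_mul, Polynomial.map_C] at h1
    exact h1
  have hdA : ¬ (C ϖ : A₀[X]) ∣ (C c * q).map (Int.castRingHom A₀) := by
    intro hdvd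
    have h1 := (Polynomial.C_dvd_iff_dvd_coeff _ _).mp hdvd q.natDegree
    rw [Polynomial.coeff_map, Polynomial.coeff_C_mul, hq.coeff_natDegree, mul_one] at h1
    have hu : IsUnit ((Int.castRingHom A₀) c) :=
      Fermat.Agent.H27.KLGB.isUnit_intCast_of_not_dvd ℓ hl hℓ c hc
    exact hϖ.not_isUnit (isUnit_of_dvd_unit h1 hu)
  let ι : ModelFieldGen K₁
      (F₀ ⊔ IntermediateField.adjoin ℚ {coeffMap (Int.castRingHom ℚ) t₀}) →+* LaurentSeries K₁ :=
    ((laurentBaseChange K₁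
      (F₀ ⊔ IntermediateField.adjoin ℚ {coeffMap (Int.castRingHom ℚ) t₀})).val :
        ↥(laurentBaseChange K₁
          (F₀ ⊔ IntermediateField.adjoin ℚ {coeffMap (Int.castRingHom ℚ) t₀})) →+*
            LaurentSeries K₁)
  have hιinj : Function.Injective ι := Subtype.val_injective
  let φ : A₀[X] →+* ModelFieldGen K₁
      (F₀ ⊔ IntermediateField.adjoin ℚ {coeffMap (Int.castRingHom ℚ) t₀}) :=
    ((aeval (algebraMap (ModelFieldGen K₁ F₀) (ModelFieldGen K₁
      (F₀ ⊔ IntermediateField.adjoin ℚ {coeffMap (Int.castRingHom ℚ) t₀})) jE) :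
        A₀[X] →ₐ[A₀] ModelFieldGen K₁
          (F₀ ⊔ IntermediateField.adjoin ℚ {coeffMap (Int.castRingHom ℚ) t₀})) :
      A₀[X] →+* ModelFieldGen K₁
          (F₀ ⊔ IntermediateField.adjoin ℚ {coeffMap (Int.castRingHom ℚ) t₀}))
  have hPv : eval₂ φ v (P.map f) = 0 := by
    apply hιinj
    rw [map_zero, Polynomial.eval₂_map, Polynomial.hom_eval₂]
    have hcomp : ι.comp (φ.comp f) =
        (coeffMap (Int.castRingHom K₁)).comp
          ((aeval (jqModC ℤ) : ℤ[X] →ₐ[ℤ] LaurentSeries ℤ) : ℤ[X] →+* LaurentSeries ℤ) := by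
      apply Polynomial.ringHom_ext
      · intro a
        exact RingHom.congr_fun (RingHom.ext_int ((ι.comp (φ.comp f)).comp C)
          (((coeffMap (Int.castRingHom K₁)).comp
            ((aeval (jqModC ℤ) : ℤ[X] →ₐ[ℤ] LaurentSeries ℤ) :
              ℤ[X] →+* LaurentSeries ℤ)).comp C)) a
      · simp only [RingHom.comp_apply, RingHom.coe_coe, f, φ, Polynomial.coe_mapRingHom,
          Polynomial.map_X, aeval_X, coeffMap_jqModC]
        exact Fermat.Agent.H27.KLGB.coeffEmb_jq K₁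
    have hιv : ι v = coeffMap (Int.castRingHom K₁) t₀ :=
      Fermat.Agent.H27.KLGB.coeffEmb_coeffMap_int K₁ t₀
    rw [hcomp, hιv, ← Polynomial.hom_eval₂, hrel, map_zero]
  have hres := goodBasis_adjoin_of_bezout A₀ (ModelFieldGen K₁ F₀) (ModelFieldGen K₁
      (F₀ ⊔ IntermediateField.adjoin ℚ {coeffMap (Int.castRingHom ℚ) t₀})) hinj ϖ hϖ jE hjtr v
    hadjF (P.map f) (P'.map f) (U.map f) (V.map f) ((C c * q).map (Int.castRingHom A₀))
    hPA hPA' hPv hdA hBezA hGBj
  rw [hxj] at hres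
  exact hres

end Fermat.Agent.H28

end
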