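import Fermat.Agent.H28.ES1KL.T2Gen
import Fermat.Agent.H28.ES1KL.GbAdjoin

/-!
# P-DS / ES1-KL, milestone 2, route S (helper28): the good bases of the two Hecke fields

From helper21's `HeckeFieldSimpleStatement` (`heckeField (F1 M) p = F1 M ⊔ ℚ(j(q^p))`) and
helper74's `Gb1Statement`:

* `gbH23_of_hf` : `ModelGoodBasisGen (heckeField (F1 M) 2) 3 jq` (`M ≥ 5` prime to `6`),
* `gbH32_of_hf` : `ModelGoodBasisGen (heckeField (F1 M) 3) 2 jq`,

exactly the two hypotheses of helper29's `Fermat.Agent.H29.ES1.s48_of_gbH23`.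
Also the generic forms `gbH_two_of_eq`, `gbH_three_of_eq` for any level field `F ∋ j`.
-/

set_option autoImplicit false
set_option linter.style.haveILetI false
set_option linter.unusedSectionVars false
set_option synthInstance.maxHeartbeats 400000
set_option maxHeartbeats 1000000

noncomputable section

namespace Fermat.Agent.H28

open ModularCurve IntermediateField
open Fermat.Agent.H29.ES1 Fermat.Agent.H91.ES1KL

/-- Good basis of `F ⊔ ℚ(j(q²))` at `ℓ ≠ 2` from a good basis of `F ∋ j`. -/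
theorem gb_sup_jq2 (F : IntermediateField ℚ (LaurentSeries ℚ)) (hj : jq ∈ F)
    (ℓ : ℕ) (hl : ℓ.Prime) (h2 : ℓ ≠ 2) (hGB : ModelGoodBasisGen F ℓ jq) :
    ModelGoodBasisGen (F ⊔ IntermediateField.adjoin ℚ {qExpand ℚ 2 jq}) ℓ jq := by
  rw [sup_adjoin_jq2_eq F hj]
  exact gbAdjoinT2 F hj ℓ hl h2 hGB

/-- Good basis of `F ⊔ ℚ(j(q³))` at `ℓ ≠ 3` from a good basis of `F ∋ j`. -/
theorem gb_sup_jq3 (F : IntermediateField ℚ (LaurentSeries ℚ)) (hj : jq ∈ F)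
    (ℓ : ℕ) (hl : ℓ.Prime) (h3 : ℓ ≠ 3) (hGB : ModelGoodBasisGen F ℓ jq) :
    ModelGoodBasisGen (F ⊔ IntermediateField.adjoin ℚ {qExpand ℚ 3 jq}) ℓ jq := by
  rw [sup_adjoin_jq3_eq F hj]
  exact gbAdjoinT3 F hj ℓ hl h3 hGB

/-- **Route S, `(p, ℓ) = (2, 3)`**. -/
theorem gbH23_of_hf (hHF : Fermat.Agent.H21.Es1Kl.HeckeFieldSimpleStatement)
    (hGB1 : Gb1Statement) :
    ∀ (M : ℕ) [NeZero M], 5 ≤ M → ¬ 2 ∣ M → ¬ 3 ∣ M →
      ModelGoodBasisGen (heckeField (F1 M) 2) 3 jq := by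
  intro M _ hM h2 h3
  rw [hHF M hM 2 Nat.prime_two h2]
  exact gb_sup_jq2 (F1 M) (jq_mem_F1 (M := M)) 3 Nat.prime_three (by norm_num)
    (hGB1 M hM 3 Nat.prime_three h3)

/-- **Route S, `(p, ℓ) = (3, 2)`**. -/
theorem gbH32_of_hf (hHF : Fermat.Agent.H21.Es1Kl.HeckeFieldSimpleStatement)
    (hGB1 : Gb1Statement) :
    ∀ (M : ℕ) [NeZero M], 5 ≤ M → ¬ 2 ∣ M → ¬ 3 ∣ M →
      ModelGoodBasisGen (heckeField (F1 M) 3) 2 jq := by
  intro M _ hM h2 h3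
  rw [hHF M hM 3 Nat.prime_three h3]
  exact gb_sup_jq3 (F1 M) (jq_mem_F1 (M := M)) 2 Nat.prime_two (by norm_num)
    (hGB1 M hM 2 Nat.prime_two h2)

end Fermat.Agent.H28

end
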