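import Fermat.Agent.H17.ESD.BranchT2
import Fermat.Agent.H17.ESD.T2Model
import Fermat.Agent.H1.ESD.T3Rat
import Fermat.Agent.H51.ES1.CoeffDescent
import Fermat.Agent.H69.ES1AlgRel
import Fermat.Agent.H42.Kronecker
import Fermat.Agent.H85.ForH23

/-!
# P-DS / ES1-KL, milestone 2, route S (helper28): `ℚ(j, j(q²)) = ℚ(t₂)`, `ℚ(j, j(q³)) = ℚ(t₃)`

The level-3 statement is helper1's `fullC_three_eq_adjoin_t3_gen`.  For level 2 only
`t₂ ∈ ℚ(j, j(q²))` was available; here the converse is obtained WITHOUT a new modular identity: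
`[ℚ̄(X₀(2)) : ℚ̄(j)] = 3` (`finrank_eq_card`) and `[ℚ̄(X₀(2)) : ℚ̄(j)] = 3 [ℚ̄(X₀(2)) : ℚ̄(t₂)]`
(`t2Bar_finrank`) give `ℚ̄(t₂) = ℚ̄(X₀(2))`, and membership descends from `ℚ̄` to `ℚ`
(helper51's `mem_of_coeffEmb_mem`).

* `full_two_eq_adjoin_t2 : modularFunctionFieldFull 2 = ℚ(t₂)`;
* `sup_adjoin_jq2_eq`, `sup_adjoin_jq3_eq` : `F ⊔ ℚ(j(q^p)) = F ⊔ ℚ(t_p)` for `F ∋ j`, `p = 2, 3`.
-/

set_option autoImplicit false
set_option linter.style.haveILetI false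
set_option linter.unusedSectionVars false
set_option synthInstance.maxHeartbeats 400000
set_option maxHeartbeats 1000000

noncomputable section

namespace Fermat.Agent.H28

open ModularCurve IntermediateField
open Fermat.Agent.H17.ESD

local notation "Kbar" => AlgebraicClosure ℚ

/-- `[ℚ̄(X₀(2)) : ℚ̄(t₂)] = 1`. -/
theorem finrank_t2Bar_two :
    Module.finrank Kbar⟮t2Bar 2 dvd_rfl⟯ ↥(modularFunctionFieldBar 2) = 1 := by
  have h1 := Fermat.Agent.H17.ESD.finrank_eq_card 2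
  have h2 := Fermat.Agent.H17.ESD.t2Bar_finrank 2 dvd_rfl
  obtain ⟨hcard, -⟩ := Fermat.Agent.H85.cosetCombinatorics 2
  have h3 : dedekindPsi 2 = 3 := by
    haveI : Fact (Nat.Prime 2) := ⟨Nat.prime_two⟩
    exact Fermat.Agent.H42.dedekindPsi_prime 2
  rw [h1, hcard, h3] at h2
  omega

/-- `ℚ̄(t₂) = ℚ̄(X₀(2))`. -/
theorem adjoin_t2Bar_two_eq_top :
    Kbar⟮t2Bar 2 dvd_rfl⟯ = (⊤ : IntermediateField Kbar ↥(modularFunctionFieldBar 2)) :=
  IntermediateField.finrank_eq_one_iff_eq_top.mp finrank_t2Bar_two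

/-- Every element of `ℚ̄(X₀(2))` is a rational function of `t₂` over `ℚ̄`. -/
theorem mem_adjoin_t2S_bar (y : LaurentSeries Kbar) (hy : y ∈ modularFunctionFieldBar 2) :
    y ∈ IntermediateField.adjoin Kbar ({t2S Kbar} : Set (LaurentSeries Kbar)) := by
  have h1 : (⟨y, hy⟩ : ↥(modularFunctionFieldBar 2)) ∈ Kbar⟮t2Bar 2 dvd_rfl⟯ := by
    rw [adjoin_t2Bar_two_eq_top]
    exact IntermediateField.mem_top
  have h2 : y ∈ (Kbar⟮t2Bar 2 dvd_rfl⟯).map (modularFunctionFieldBar 2).val :=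
    ⟨⟨y, hy⟩, h1, rfl⟩
  rw [IntermediateField.adjoin_map, Set.image_singleton] at h2
  exact h2

/-- `ℚ(X₀(2)) = ℚ(t₂)`. -/
theorem full_two_eq_adjoin_t2 :
    modularFunctionFieldFull 2 = IntermediateField.adjoin ℚ ({t2S ℚ} : Set (LaurentSeries ℚ)) := by
  apply le_antisymm
  · intro y hy
    apply Fermat.Agent.H51.ES1.mem_of_coeffEmb_mem (L := Kbar)
    rw [Fermat.Agent.H69.ES1.laurentBaseChange_adjoin, Set.image_singleton, coeffEmb_t2S]
    exact mem_adjoin_t2S_bar _ (coeffEmb_mem_laurentBaseChange Kbar hy)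
  · rw [IntermediateField.adjoin_le_iff, Set.singleton_subset_iff]
    exact t2S_rat_mem 2 dvd_rfl

/-- `j(q²) ∈ ℚ(t₂)`. -/
theorem jq2_mem_adjoin_t2 :
    qExpand ℚ 2 jq ∈ IntermediateField.adjoin ℚ ({t2S ℚ} : Set (LaurentSeries ℚ)) := by
  rw [← full_two_eq_adjoin_t2, ← jqModC_rat, ← modularFunctionFieldFullC_rat]
  exact jqModCd_mem_full ℚ 2 dvd_rfl

/-- `ℚ(X₀(3)) = ℚ(t₃)`. -/
theorem full_three_eq_adjoin_t3 :
    modularFunctionFieldFull 3 =
      IntermediateField.adjoin ℚ ({Fermat.Agent.H1.ESD.t3 ℚ} : Set (LaurentSeries ℚ)) := by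
  rw [← modularFunctionFieldFullC_rat]
  exact Fermat.Agent.H1.ESD.fullC_three_eq_adjoin_t3_gen ℚ (by norm_num)

/-- `j(q³) ∈ ℚ(t₃)`. -/
theorem jq3_mem_adjoin_t3 :
    qExpand ℚ 3 jq ∈
      IntermediateField.adjoin ℚ ({Fermat.Agent.H1.ESD.t3 ℚ} : Set (LaurentSeries ℚ)) := by
  rw [← full_three_eq_adjoin_t3, ← jqModC_rat, ← modularFunctionFieldFullC_rat]
  exact jqModCd_mem_full ℚ 3 dvd_rfl

/-- `ℚ(X₀(p)) ≤ F ⊔ ℚ(j(q^p))` for `F ∋ j`. -/
theorem full_le_sup_adjoin (p : ℕ) [NeZero p] (hp : p.Prime)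
    (F : IntermediateField ℚ (LaurentSeries ℚ)) (hj : jq ∈ F) :
    modularFunctionFieldFull p ≤ F ⊔ IntermediateField.adjoin ℚ {qExpand ℚ p jq} := by
  rw [← modularFunctionFieldFullC_rat, modularFunctionFieldFullC, IntermediateField.adjoin_le_iff]
  rintro x ⟨d, hd0, hd, rfl⟩
  rcases (Nat.dvd_prime hp).mp hd with rfl | rfl
  · rw [qExpand_one_apply]
    exact (le_sup_left : F ≤ _) hj
  · exact (le_sup_right : IntermediateField.adjoin ℚ {qExpand ℚ d jq} ≤ _)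
      (IntermediateField.mem_adjoin_simple_self ℚ _)

/-- `F ⊔ ℚ(j(q²)) = F ⊔ ℚ(t₂)` for `F ∋ j`. -/
theorem sup_adjoin_jq2_eq (F : IntermediateField ℚ (LaurentSeries ℚ)) (hj : jq ∈ F) :
    F ⊔ IntermediateField.adjoin ℚ {qExpand ℚ 2 jq} =
      F ⊔ IntermediateField.adjoin ℚ {t2S ℚ} := by
  apply le_antisymm
  · refine sup_le le_sup_left ?_
    rw [IntermediateField.adjoin_le_iff, Set.singleton_subset_iff]
    exact (le_sup_right : IntermediateField.adjoin ℚ {t2S ℚ} ≤ _) jq2_mem_adjoin_t2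
  · refine sup_le le_sup_left ?_
    rw [← full_two_eq_adjoin_t2]
    exact full_le_sup_adjoin 2 Nat.prime_two F hj

/-- `F ⊔ ℚ(j(q³)) = F ⊔ ℚ(t₃)` for `F ∋ j`. -/
theorem sup_adjoin_jq3_eq (F : IntermediateField ℚ (LaurentSeries ℚ)) (hj : jq ∈ F) :
    F ⊔ IntermediateField.adjoin ℚ {qExpand ℚ 3 jq} =
      F ⊔ IntermediateField.adjoin ℚ {Fermat.Agent.H1.ESD.t3 ℚ} := by
  apply le_antisymm
  · refine sup_le le_sup_left ?_
    rw [IntermediateField.adjoin_le_iff, Set.singleton_subset_iff]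
    exact (le_sup_right : IntermediateField.adjoin ℚ {Fermat.Agent.H1.ESD.t3 ℚ} ≤ _)
      jq3_mem_adjoin_t3
  · refine sup_le le_sup_left ?_
    rw [← full_three_eq_adjoin_t3]
    exact full_le_sup_adjoin 3 Nat.prime_three F hj

end Fermat.Agent.H28

end
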